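import Mathlib
import Fermat.Agent.LT.T1.Spec

/-!
# Row LT, tower T1, leaf `AdNormC` (helper309)

OFF-MAIN.  The module `adNorm` of `T1/Spec.lean` on the ideles of a number field `K`:
positive, multiplicative, trivial on `Kˣ` (product formula, from Mathlib's
`NumberField.prod_abs_eq_one`), continuous for the unit topology of `(𝔸_K)ˣ`.

`adNormC309 K : Fermat.Agent.LT.T1.AdNormC K` and `leafAdNorm309 K : LeafAdNorm K` (leaf T1.05),
unconditional, every number field `K`.
-/

set_option autoImplicit false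

open IsDedekindDomain NumberField
open Fermat.Agent.LT.H556.A0 Fermat.Agent.LT.T1

noncomputable section

namespace Fermat.Agent.LT.T1.H309

variable (K : Type) [Field K] [NumberField K]

/-! ## Components of an idele -/

theorem fin_isUnit309 (x : (Adl K)ˣ) : IsUnit ((x : Adl K).2) :=
  (Prod.isUnit_iff.mp x.isUnit).2

theorem inf_ne_zero309 (x : (Adl K)ˣ) (w : InfinitePlace K) : (x : Adl K).1 w ≠ 0 :=
  (Pi.isUnit_iff.mp (Prod.isUnit_iff.mp x.isUnit).1 w).ne_zero

theorem fin_ne_zero309 (x : (Adl K)ˣ) (v : HeightOneSpectrum (𝓞 K)) : (x : Adl K).2 v ≠ 0 :=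
  (FiniteAdeleRing.isUnit_iff.mp (fin_isUnit309 K x)).1 v

theorem norm_eq_one_iff309 (v : HeightOneSpectrum (𝓞 K)) (y : v.adicCompletion K) :
    ‖y‖ = 1 ↔ Valued.v y = 1 := by
  rw [le_antisymm_iff, le_antisymm_iff, Valued.toNormedField.norm_le_one_iff,
    Valued.toNormedField.one_le_norm_iff]

theorem hasFiniteMulSupport309 (x : (Adl K)ˣ) :
    Function.HasFiniteMulSupport fun v : HeightOneSpectrum (𝓞 K) => ‖(x : Adl K).2 v‖ := by
  have h := (FiniteAdeleRing.isUnit_iff.mp (fin_isUnit309 K x)).2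
  rw [Filter.eventually_cofinite] at h
  refine h.subset fun v hv => ?_
  simp only [Function.mem_mulSupport] at hv
  simp only [Set.mem_ofPred_eq]
  exact fun h1 => hv ((norm_eq_one_iff309 K v _).mpr h1)

/-! ## Positivity and multiplicativity -/

theorem adNorm_pos309 (x : (Adl K)ˣ) : 0 < adNorm K (x : Adl K) := by
  unfold adNorm
  refine mul_pos (Finset.prod_pos fun w _ => pow_pos (norm_pos_iff.mpr (inf_ne_zero309 K x w)) _) ?_
  exact finprod_induction (fun r : ℝ => 0 < r) one_pos (fun _ _ => mul_pos)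
    fun v => norm_pos_iff.mpr (fin_ne_zero309 K x v)

theorem adNorm_mul309 (x y : (Adl K)ˣ) :
    adNorm K ((x * y : (Adl K)ˣ) : Adl K) = adNorm K (x : Adl K) * adNorm K (y : Adl K) := by
  unfold adNorm
  have h1 : ∀ w : InfinitePlace K, ‖((x * y : (Adl K)ˣ) : Adl K).1 w‖ ^ w.mult
      = ‖(x : Adl K).1 w‖ ^ w.mult * ‖(y : Adl K).1 w‖ ^ w.mult := fun w => by
    rw [← mul_pow, ← norm_mul]; rfl
  have h2 : ∀ v : HeightOneSpectrum (𝓞 K), ‖((x * y : (Adl K)ˣ) : Adl K).2 v‖
      = ‖(x : Adl K).2 v‖ * ‖(y : Adl K).2 v‖ := fun v => by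
    rw [← norm_mul]; rfl
  simp only [h1, h2, Finset.prod_mul_distrib]
  rw [finprod_mul_distrib (hasFiniteMulSupport309 K x) (hasFiniteMulSupport309 K y)]
  ring

/-! ## Product formula -/

theorem infNorm309 (ξ : K) (w : InfinitePlace K) :
    ‖(algebraMap K (Adl K) ξ).1 w‖ = w ξ := by
  have := InfinitePlace.Completion.norm_coe w ((WithAbs.equiv w.1).symm ξ)
  simpa using this

theorem finNorm309 (ξ : K) (v : HeightOneSpectrum (𝓞 K)) :
    ‖(algebraMap K (Adl K) ξ).2 v‖ = (FinitePlace.equivHeightOneSpectrum.symm v) ξ := rfl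

theorem adNorm_algebraMap309 (ξ : K) (hξ : ξ ≠ 0) :
    adNorm K (algebraMap K (Adl K) ξ) = 1 := by
  unfold adNorm
  simp only [infNorm309, finNorm309]
  rw [finprod_eq_of_bijective (f := fun v : HeightOneSpectrum (𝓞 K) =>
      (FinitePlace.equivHeightOneSpectrum.symm v) ξ) (g := fun w : FinitePlace K => w ξ)
      FinitePlace.equivHeightOneSpectrum.symm FinitePlace.equivHeightOneSpectrum.symm.bijective
      (fun _ => rfl)]
  exact prod_abs_eq_one hξ

theorem adNorm_ratUnit309 (ξ : Kˣ) : adNorm K (ratUnit K ξ : Adl K) = 1 :=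
  adNorm_algebraMap309 K (ξ : K) ξ.ne_zero

/-! ## Continuity -/

theorem continuous_fst309 : Continuous fun y : (Adl K)ˣ => (y : Adl K).1 :=
  continuous_fst.comp Units.continuous_val

theorem continuous_snd309 : Continuous fun y : (Adl K)ˣ => (y : Adl K).2 :=
  continuous_snd.comp Units.continuous_val

theorem continuous_snd_inv309 : Continuous fun y : (Adl K)ˣ => ((y⁻¹ : (Adl K)ˣ) : Adl K).2 :=
  (continuous_snd309 K).comp continuous_inv

theorem fin_mul_inv309 (y : (Adl K)ˣ) (v : HeightOneSpectrum (𝓞 K)) :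
    (y : Adl K).2 v * ((y⁻¹ : (Adl K)ˣ) : Adl K).2 v = 1 := by
  have h : (y : Adl K) * ((y⁻¹ : (Adl K)ˣ) : Adl K) = 1 := y.mul_inv
  have h2 := congrArg (fun z : Adl K => z.2 v) h
  exact h2

theorem continuous_adNorm309 : Continuous fun x : (Adl K)ˣ => adNorm K (x : Adl K) := by
  rw [continuous_iff_continuousAt]
  intro x0
  have hfin : {v : HeightOneSpectrum (𝓞 K) | ¬ Valued.v ((x0 : Adl K).2 v) = 1}.Finite := by
    have h := (FiniteAdeleRing.isUnit_iff.mp (fin_isUnit309 K x0)).2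
    rwa [Filter.eventually_cofinite] at h
  set S : Finset (HeightOneSpectrum (𝓞 K)) := hfin.toFinset with hS
  let U : Set (FiniteAdeleRing (𝓞 K) K) :=
    {f | ∀ v : HeightOneSpectrum (𝓞 K), v ∉ S → f v ∈ v.adicCompletionIntegers K}
  have hU : IsOpen U :=
    RestrictedProduct.isOpen_forall_imp_mem
      (A := fun v : HeightOneSpectrum (𝓞 K) => (v.adicCompletionIntegers K : Set (v.adicCompletion K)))
      (fun v => Valued.isOpen_valuationSubring _) (p := fun v => v ∉ S)
  let V : Set (Adl K)ˣ := {y | (y : Adl K).2 ∈ U ∧ ((y⁻¹ : (Adl K)ˣ) : Adl K).2 ∈ U}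
  have hV : IsOpen V :=
    (hU.preimage (continuous_snd309 K)).inter (hU.preimage (continuous_snd_inv309 K))
  have hval : ∀ (y : (Adl K)ˣ) (v : HeightOneSpectrum (𝓞 K)),
      Valued.v ((y : Adl K).2 v) * Valued.v (((y⁻¹ : (Adl K)ˣ) : Adl K).2 v) = 1 := by
    intro y v
    rw [← map_mul, fin_mul_inv309, map_one]
  have hx0 : x0 ∈ V := by
    refine ⟨fun v hv => ?_, fun v hv => ?_⟩
    · have h1 : Valued.v ((x0 : Adl K).2 v) = 1 := by
        by_contra h; exact hv (by simpa [hS] using h)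
      rw [HeightOneSpectrum.mem_adicCompletionIntegers]
      exact h1.le
    · have h1 : Valued.v ((x0 : Adl K).2 v) = 1 := by
        by_contra h; exact hv (by simpa [hS] using h)
      have h2 := hval x0 v
      rw [h1, one_mul] at h2
      rw [HeightOneSpectrum.mem_adicCompletionIntegers]
      exact h2.le
  have hEq : ∀ y ∈ V, adNorm K (y : Adl K)
      = (∏ w : InfinitePlace K, ‖(y : Adl K).1 w‖ ^ w.mult) * ∏ v ∈ S, ‖(y : Adl K).2 v‖ := by
    intro y hy
    unfold adNorm
    congr 1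
    apply finprod_eq_prod_of_mulSupport_subset
    intro v hv
    by_contra hvS
    have hvS' : v ∉ S := fun h => hvS (by simpa using h)
    have h1 := hy.1 v hvS'
    have h2 := hy.2 v hvS'
    rw [HeightOneSpectrum.mem_adicCompletionIntegers,
      ← Valued.toNormedField.norm_le_one_iff] at h1 h2
    have h3 : ‖(y : Adl K).2 v‖ * ‖((y⁻¹ : (Adl K)ˣ) : Adl K).2 v‖ = 1 := by
      rw [← norm_mul, fin_mul_inv309, norm_one]
    have h4 : ‖(y : Adl K).2 v‖ = 1 := by
      refine le_antisymm h1 ?_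
      calc (1 : ℝ) = ‖(y : Adl K).2 v‖ * ‖((y⁻¹ : (Adl K)ˣ) : Adl K).2 v‖ := h3.symm
        _ ≤ ‖(y : Adl K).2 v‖ * 1 := mul_le_mul_of_nonneg_left h2 (norm_nonneg _)
        _ = ‖(y : Adl K).2 v‖ := mul_one _
    exact hv h4
  have hcont : Continuous fun y : (Adl K)ˣ =>
      (∏ w : InfinitePlace K, ‖(y : Adl K).1 w‖ ^ w.mult) * ∏ v ∈ S, ‖(y : Adl K).2 v‖ := by
    refine Continuous.mul (continuous_finsetProd _ fun w _ => ?_)
      (continuous_finsetProd _ fun v _ => ?_)
    · exact (continuous_norm.comp ((continuous_apply w).comp (continuous_fst309 K))).pow _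
    · exact continuous_norm.comp
        ((RestrictedProduct.continuous_eval v).comp (continuous_snd309 K))
  exact hcont.continuousAt.congr
    (Filter.eventuallyEq_of_mem (hV.mem_nhds hx0) fun y hy => (hEq y hy).symm)

/-! ## The leaf -/

theorem adNormC309 : AdNormC K :=
  ⟨adNorm_pos309 K, adNorm_mul309 K, adNorm_ratUnit309 K, continuous_adNorm309 K⟩

/-- Leaf T1.05 of `T1/Spec.lean` v1. -/
theorem leafAdNorm309 : LeafAdNorm K := adNormC309 K

end Fermat.Agent.LT.T1.H309

end
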